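/-
Fermat/Agent/AV/Var81/Wrap.lean  (helper81) -- CELL AV (S26/S27), brick VAR, wrappers.

* `connectedSpace_of_connectedFibres`, `isIntegral_of_bundle`: the hypotheses of S26
  (`AbelianSchemePropertyBundle`) make the total space connected, hence integral.
* `isIntegral_of_isPullback`: products of integral schemes locally of finite type over an
  algebraically closed field are integral, for an arbitrary pullback square
  (from `Jac/GeomIntegral40`).
-/
import Mathlib
import Fermat.Prelude.Def_JacJ1Iface
import Fermat.Agent.Jac.GeomIntegral40
import Fermat.Agent.AV.Var81.Scheme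

set_option autoImplicit false

universe u

open CategoryTheory CategoryTheory.Limits AlgebraicGeometry

namespace Fermat.Agent.AV.Var81

variable {K : Type u} [Field K] {A : Scheme.{u}} (f : A ⟶ Spec (.of K))

/-- A scheme over a field whose (unique) fibre is connected is connected. -/
theorem connectedSpace_of_connectedFibres
    (h : ∀ s : Spec (CommRingCat.of K), _root_.IsConnected (f.base ⁻¹' {s})) :
    ConnectedSpace A := by
  let s₀ : Spec (CommRingCat.of K) := IsLocalRing.closedPoint K
  have huniv : (f.base ⁻¹' {s₀} : Set A) = Set.univ := by
    rw [Set.eq_univ_iff_forall]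
    intro x
    exact Subsingleton.elim _ _
  have := h s₀
  rw [huniv] at this
  exact connectedSpace_iff_univ.mpr this

/-- Under the hypotheses of S26 the total space is integral. -/
theorem isIntegral_of_bundle (hA : GoodReductionJacobian.AbelianSchemePropertyBundle K f) :
    IsIntegral A := by
  have := hA.smooth
  have := connectedSpace_of_connectedFibres f hA.connectedFibres
  exact isIntegral_of_smooth_of_connected f

/-- Products of integral schemes, locally of finite type over an algebraically closed field, are
integral (any pullback square). -/
theorem isIntegral_of_isPullback [IsAlgClosed K] {X Y W : Scheme.{u}}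
    (sX : X ⟶ Spec (.of K)) (sY : Y ⟶ Spec (.of K)) {p1 : W ⟶ X} {p2 : W ⟶ Y}
    (hW : IsPullback p1 p2 sX sY) [IsIntegral X] [LocallyOfFiniteType sX] [IsIntegral Y]
    [LocallyOfFiniteType sY] : IsIntegral W := by
  have : IsLocallyNoetherian Y := LocallyOfFiniteType.isLocallyNoetherian sY
  have := Fermat.Agent.Jac.GeomIntegral40.isIntegral_pullback sX sY
  exact IsIntegral.of_isIso hW.isoPullback.inv

end Fermat.Agent.AV.Var81
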