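/-
Fermat/Agent/AV/Var81/Alg.lean  (helper81) -- CELL AV (S26/S27), brick VAR, algebra half.

Smooth algebras over a field are locally normal domains:

* `exists_idem_normal_of_artinian` : abstract core.  If `S ⊆ T` is integrally closed in a reduced
  artinian ring `T`, then every prime `q` of `S` avoids an idempotent `g` such that `S[1/g]` is an
  integrally closed domain.
* `exists_away_normal_of_etale` : `S` étale over an integrally closed domain `P`.
* `exists_away_normal_of_smooth` : `S` smooth over a field `K`.
* `isIntegrallyClosed_of_smooth` : a domain which is smooth over a field is integrally closed.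

No regular local rings are used; the input is Mathlib's theorem that smooth base change commutes
with integral closure (`TensorProduct.toIntegralClosure_bijective_of_smooth`).
-/
import Mathlib

set_option autoImplicit false

open scoped TensorProduct

namespace Fermat.Agent.AV.Var81

universe w

section ArtinianCore

variable {T : Type*} [CommRing T] [IsArtinianRing T] [IsReduced T]

open Classical in
/-- The primitive idempotent of a reduced artinian ring attached to a maximal ideal. -/
noncomputable def primIdem (m : MaximalSpectrum T) : T :=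
  (IsArtinianRing.equivPi T).symm (Pi.single m 1)

open Classical in
theorem equivPi_primIdem (m : MaximalSpectrum T) :
    IsArtinianRing.equivPi T (primIdem m) = Pi.single m 1 := by
  simp [primIdem]

theorem primIdem_isIdempotentElem (m : MaximalSpectrum T) : IsIdempotentElem (primIdem m) := by
  classical
  apply (IsArtinianRing.equivPi T).injective
  rw [map_mul, equivPi_primIdem, ← Pi.single_mul, mul_one]

theorem mk_primIdem_self (m : MaximalSpectrum T) :
    Ideal.Quotient.mk m.asIdeal (primIdem m) = 1 := by
  classical
  have := congrFun (equivPi_primIdem m) m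
  rwa [IsArtinianRing.equivPi_apply, Pi.single_eq_same] at this

theorem mul_primIdem_eq_zero {m : MaximalSpectrum T} {t : T} (ht : t ∈ m.asIdeal) :
    t * primIdem m = 0 := by
  classical
  apply (IsArtinianRing.equivPi T).injective
  rw [map_mul, equivPi_primIdem, map_zero]
  ext m'
  by_cases h : m' = m
  · subst h
    simp [IsArtinianRing.equivPi_apply, Ideal.Quotient.eq_zero_iff_mem.mpr ht]
  · simp [Pi.single_eq_of_ne h]

theorem sum_primIdem [Fintype (MaximalSpectrum T)] : ∑ m, primIdem m = (1 : T) := by
  classical
  apply (IsArtinianRing.equivPi T).injective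
  rw [map_sum, map_one]
  simp_rw [equivPi_primIdem]
  exact Finset.univ_sum_single (1 : ∀ I : MaximalSpectrum T, T ⧸ I.asIdeal)

/-- **Abstract core.**  Let `S ⊆ T` with `T` reduced artinian and `S` integrally closed in `T`.
Then every prime `q` of `S` avoids an idempotent `g` of `S` such that every localization of `S`
away from `g` is an integrally closed domain. -/
theorem exists_idem_normal_of_artinian {S : Type*} [CommRing S] [Algebra S T]
    (hinj : Function.Injective (algebraMap S T))
    (hic : ∀ t : T, IsIntegral S t → ∃ s, algebraMap S T s = t)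
    (q : Ideal S) [q.IsPrime] :
    ∃ g ∉ q, IsIdempotentElem g ∧ ∀ (R' : Type w) [CommRing R'] [Algebra S R']
      [IsLocalization.Away g R'], IsDomain R' ∧ IsIntegrallyClosed R' := by
  classical
  have : Fintype (MaximalSpectrum T) := Fintype.ofFinite _
  -- the primitive idempotents of `T` lie in `S`
  have hlift : ∀ m : MaximalSpectrum T, ∃ ε : S, algebraMap S T ε = primIdem m := fun m ↦ by
    refine hic _ ⟨Polynomial.X ^ 2 - Polynomial.X, ?_, ?_⟩
    · exact Polynomial.monic_X_pow_sub (Polynomial.degree_X_le.trans_lt (by norm_num))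
    · have := (primIdem_isIdempotentElem m).eq
      simp [pow_two, this]
  choose ε hε using hlift
  have hsum : ∑ m, ε m = 1 := hinj (by
    rw [map_sum, map_one]; simp_rw [hε]; exact sum_primIdem)
  obtain ⟨m, hm⟩ : ∃ m, ε m ∉ q := by
    by_contra h
    push Not at h
    exact (Ideal.ne_top_iff_one q).mp (Ideal.IsPrime.ne_top ‹_›)
      (hsum ▸ Ideal.sum_mem _ fun m _ ↦ h m)
  have hidem : IsIdempotentElem (ε m) :=
    hinj (by rw [map_mul, hε]; exact primIdem_isIdempotentElem m)
  refine ⟨ε m, hm, hidem, ?_⟩
  intro R' _ _ _
  -- the residue field `F = T / m`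
  let : Field (T ⧸ m.asIdeal) := Ideal.Quotient.field _
  let g : S →+* T ⧸ m.asIdeal := (Ideal.Quotient.mk m.asIdeal).comp (algebraMap S T)
  have hgε : g (ε m) = 1 := by
    change Ideal.Quotient.mk m.asIdeal (algebraMap S T (ε m)) = 1
    rw [hε, mk_primIdem_self]
  let ψ : R' →+* T ⧸ m.asIdeal :=
    IsLocalization.Away.lift (ε m) (g := g) (by rw [hgε]; exact isUnit_one)
  have hψ : ∀ s, ψ (algebraMap S R' s) = g s := fun s ↦ IsLocalization.Away.lift_eq _ _ _
  have hsurj : Function.Surjective (algebraMap S R') :=
    IsLocalization.Away.algebraMap_surjective_of_isIdempotentElem (ε m) hidem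
  have hψinj : Function.Injective ψ := by
    rw [injective_iff_map_eq_zero]
    intro x hx
    obtain ⟨s, rfl⟩ := hsurj x
    rw [hψ] at hx
    have h1 : algebraMap S T s ∈ m.asIdeal := Ideal.Quotient.eq_zero_iff_mem.mp hx
    have h2 : s * ε m = 0 :=
      hinj (by rw [map_mul, hε, map_zero]; exact mul_primIdem_eq_zero h1)
    have hu : IsUnit (algebraMap S R' (ε m)) := IsLocalization.Away.algebraMap_isUnit (ε m)
    exact hu.mul_left_eq_zero.mp (by rw [← map_mul, h2, map_zero])
  let : Algebra R' (T ⧸ m.asIdeal) := ψ.toAlgebra
  have hFS : FaithfulSMul R' (T ⧸ m.asIdeal) :=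
    (faithfulSMul_iff_algebraMap_injective R' (T ⧸ m.asIdeal)).mpr hψinj
  have hcl : IsIntegrallyClosedIn R' (T ⧸ m.asIdeal) := by
    rw [isIntegrallyClosedIn_iff]
    refine ⟨hψinj, fun {x} hx ↦ ?_⟩
    have : IsScalarTower S R' (T ⧸ m.asIdeal) := .of_algebraMap_eq fun s ↦ by
      change _ = ψ (algebraMap S R' s)
      rw [hψ]
      rfl
    have : Algebra.IsIntegral S R' := Algebra.isIntegral_of_surjective hsurj
    have hxS : IsIntegral S x := isIntegral_trans x hx
    obtain ⟨t, rfl⟩ := Ideal.Quotient.mk_surjective x
    obtain ⟨p, hp, hpx⟩ := hxS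
    have ht' : IsIntegral S (t * primIdem m) := by
      refine ⟨p * Polynomial.X, hp.mul Polynomial.monic_X, ?_⟩
      rw [Polynomial.eval₂_mul, Polynomial.eval₂_X]
      have hmem : Polynomial.eval₂ (algebraMap S T) (t * primIdem m) p ∈ m.asIdeal := by
        rw [← Ideal.Quotient.eq_zero_iff_mem, Polynomial.hom_eval₂, map_mul, mk_primIdem_self,
          mul_one]
        exact hpx
      calc Polynomial.eval₂ (algebraMap S T) (t * primIdem m) p * (t * primIdem m)
          = (Polynomial.eval₂ (algebraMap S T) (t * primIdem m) p * primIdem m) * t := by ring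
        _ = 0 := by rw [mul_primIdem_eq_zero hmem, zero_mul]
    obtain ⟨s, hs⟩ := hic _ ht'
    refine ⟨algebraMap S R' s, ?_⟩
    change ψ (algebraMap S R' s) = _
    rw [hψ]
    change Ideal.Quotient.mk m.asIdeal (algebraMap S T s) = Ideal.Quotient.mk m.asIdeal t
    rw [hs, map_mul, mk_primIdem_self, mul_one]
  have hIC : IsIntegrallyClosed R' := IsIntegrallyClosed.of_isIntegrallyClosedIn R' (T ⧸ m.asIdeal)
  exact ⟨hψinj.isDomain ψ, hIC⟩

end ArtinianCore

section Etale

/-- An étale algebra over an integrally closed domain is, locally around every prime, an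
integrally closed domain. -/
theorem exists_away_normal_of_etale (P : Type*) {S : Type*} [CommRing P] [IsDomain P]
    [IsIntegrallyClosed P] [CommRing S] [Algebra P S] [Algebra.Etale P S]
    (q : Ideal S) [q.IsPrime] :
    ∃ g ∉ q, ∀ (R' : Type w) [CommRing R'] [Algebra S R'] [IsLocalization.Away g R'],
      IsDomain R' ∧ IsIntegrallyClosed R' := by
  let L := FractionRing P
  -- `T = S ⊗[P] L` is a reduced artinian ring
  let e : S ⊗[P] L ≃ₐ[P] L ⊗[P] S := Algebra.TensorProduct.comm P S L
  have : Algebra.Etale L (L ⊗[P] S) := inferInstance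
  have : Module.Finite L (L ⊗[P] S) := Algebra.FormallyUnramified.finite_of_free L _
  have : IsReduced (L ⊗[P] S) := Algebra.FormallyUnramified.isReduced_of_field L _
  have : IsArtinianRing (L ⊗[P] S) := IsArtinianRing.of_finite L _
  have : IsArtinianRing (S ⊗[P] L) := e.symm.toRingEquiv.isArtinianRing
  have : IsReduced (S ⊗[P] L) := isReduced_of_injective e.toRingEquiv.toRingHom e.injective
  -- `S` injects into `T`
  have hinj : Function.Injective (algebraMap S (S ⊗[P] L)) :=
    Algebra.TensorProduct.includeLeft_injective (S := S) (IsFractionRing.injective P L)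
  -- `S` is integrally closed in `T`
  have hic : ∀ t : S ⊗[P] L, IsIntegral S t → ∃ s, algebraMap S (S ⊗[P] L) s = t := by
    intro t ht
    obtain ⟨y, hy⟩ := (TensorProduct.toIntegralClosure_bijective_of_smooth
      (R := P) (S := S) (B := L)).2 ⟨t, ht⟩
    have hy' : ((TensorProduct.toIntegralClosure P S L y : integralClosure S (S ⊗[P] L)) :
        S ⊗[P] L) = t := congrArg Subtype.val hy
    rw [← hy']
    clear hy hy' ht
    induction y using TensorProduct.induction_on with
    | zero => exact ⟨0, by simp⟩
    | add a b ha hb =>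
      obtain ⟨sa, hsa⟩ := ha
      obtain ⟨sb, hsb⟩ := hb
      exact ⟨sa + sb, by rw [map_add, map_add, hsa, hsb]; rfl⟩
    | tmul s l =>
      obtain ⟨l, hl⟩ := l
      obtain ⟨p, rfl⟩ := IsIntegrallyClosed.isIntegral_iff.mp hl
      refine ⟨p • s, ?_⟩
      have h1 : ∀ x : S, algebraMap S (S ⊗[P] L) x = x ⊗ₜ[P] (1 : L) := fun x ↦ rfl
      have h2 : (TensorProduct.toIntegralClosure P S L (s ⊗ₜ ⟨algebraMap P L p, hl⟩) :
          S ⊗[P] L) = s ⊗ₜ[P] (algebraMap P L p) := by
        simp [TensorProduct.toIntegralClosure]
      rw [h1, h2, TensorProduct.smul_tmul, Algebra.smul_def, mul_one]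
  obtain ⟨g, hg, -, H⟩ : ∃ g ∉ q, IsIdempotentElem g ∧ ∀ (R' : Type w) [CommRing R']
      [Algebra S R'] [IsLocalization.Away g R'], IsDomain R' ∧ IsIntegrallyClosed R' :=
    exists_idem_normal_of_artinian hinj hic q
  exact ⟨g, hg, H⟩

end Etale

section Smooth

/-- A smooth algebra over a field is, locally around every prime, an integrally closed domain. -/
theorem exists_away_normal_of_smooth (K : Type*) {S : Type*} [Field K] [CommRing S] [Algebra K S]
    [Algebra.Smooth K S] (q : Ideal S) [q.IsPrime] :
    ∃ h ∉ q, ∀ (R' : Type w) [CommRing R'] [Algebra S R'] [IsLocalization.Away h R'],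
      IsDomain R' ∧ IsIntegrallyClosed R' := by
  obtain ⟨f, hfq, n, _, _, _⟩ :=
    Algebra.IsSmoothAt.exists_isStandardEtale_mvPolynomial (R := K) (p := q)
  have hq' : (Ideal.map (algebraMap S (Localization.Away f)) q).IsPrime :=
    IsLocalization.isPrime_of_isPrime_disjoint (.powers f) _ _ ‹_›
      ((Ideal.disjoint_powers_iff_notMem_of_isPrime _).mpr hfq)
  obtain ⟨g', hg', H⟩ := exists_away_normal_of_etale (MvPolynomial (Fin n) K)
    (Ideal.map (algebraMap S (Localization.Away f)) q)
  obtain ⟨k, g₀, hg₀⟩ := IsLocalization.Away.surj f g'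
  have hu : IsUnit (algebraMap S (Localization.Away f) f ^ k) :=
    IsLocalization.Away.algebraMap_pow_isUnit f k
  have hg₀q : g₀ ∉ q := by
    intro hmem
    have h1 : algebraMap S (Localization.Away f) g₀ ∈
        Ideal.map (algebraMap S (Localization.Away f)) q := Ideal.mem_map_of_mem _ hmem
    rw [← hg₀] at h1
    rcases hq'.mem_or_mem h1 with h2 | h2
    · exact hg' h2
    · exact hq'.ne_top (Ideal.eq_top_of_isUnit_mem _ h2 hu)
  refine ⟨f * g₀, fun hmem ↦ ?_, ?_⟩
  · rcases Ideal.IsPrime.mem_or_mem ‹_› hmem with h | h
    · exact hfq h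
    · exact hg₀q h
  intro R' _ _ _
  have hassoc : Associated (algebraMap S (Localization.Away f) g₀) g' := by
    refine Associated.symm ⟨hu.unit, ?_⟩
    rw [IsUnit.unit_spec]; exact hg₀
  have hT : IsLocalization.Away (f * g₀) (Localization.Away g') :=
    IsLocalization.Away.mul_of_associated f g₀ g' hassoc
  obtain ⟨hd, hic⟩ := H (Localization.Away g')
  let e : Localization.Away g' ≃ₐ[S] R' :=
    IsLocalization.algEquiv (Submonoid.powers (f * g₀)) _ _
  exact ⟨e.symm.toRingEquiv.toMulEquiv.isDomain, IsIntegrallyClosed.of_equiv e.toRingEquiv⟩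

/-- A domain which is smooth over a field is integrally closed (normal). -/
theorem isIntegrallyClosed_of_smooth (K : Type*) {S : Type*} [Field K] [CommRing S] [Algebra K S]
    [Algebra.Smooth K S] [IsDomain S] : IsIntegrallyClosed S := by
  refine IsIntegrallyClosed.of_localization_maximal fun p _ hp ↦ ?_
  obtain ⟨h, hp', H⟩ := exists_away_normal_of_smooth K p
  obtain ⟨hd, hic⟩ := H (Localization.Away h)
  have hle : Submonoid.powers h ≤ p.primeCompl := by
    rw [Submonoid.powers_le]; exact hp'
  let _ : Algebra (Localization.Away h) (Localization.AtPrime p) :=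
    IsLocalization.localizationAlgebraOfSubmonoidLe (Localization.Away h)
      (Localization.AtPrime p) (Submonoid.powers h) p.primeCompl hle
  have : IsScalarTower S (Localization.Away h) (Localization.AtPrime p) :=
    IsLocalization.localization_isScalarTower_of_submonoid_le _ _ _ _ hle
  have hloc : IsLocalization (p.primeCompl.map (algebraMap S (Localization.Away h)))
      (Localization.AtPrime p) :=
    IsLocalization.isLocalization_of_submonoid_le _ _ (Submonoid.powers h) p.primeCompl hle
  have h0 : h ≠ 0 := fun h0 ↦ hp' (h0 ▸ p.zero_mem)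
  have hinj : Function.Injective (algebraMap S (Localization.Away h)) :=
    IsLocalization.injective _ (powers_le_nonZeroDivisors_of_noZeroDivisors h0)
  refine isIntegrallyClosed_of_isLocalization (R := Localization.Away h) _
    (p.primeCompl.map (algebraMap S (Localization.Away h))) ?_
  rintro _ ⟨y, hy, rfl⟩
  rw [mem_nonZeroDivisors_iff_ne_zero]
  intro hy0
  rw [← map_zero (algebraMap S (Localization.Away h))] at hy0
  exact hy (hinj hy0 ▸ p.zero_mem)

/-- **Étale coordinates give algebraically independent functions.**  A nontrivial algebra that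
is standard smooth of relative dimension `g` over a field `K` contains `g` algebraically
independent elements (the images of the étale coordinates). -/
theorem exists_algebraicIndependent_of_standardSmooth (K : Type*) {S : Type*} [Field K]
    [CommRing S] [Algebra K S] [Nontrivial S] (g : ℕ)
    [Algebra.IsStandardSmoothOfRelativeDimension g K S] :
    ∃ x : Fin g → S, AlgebraicIndependent K x := by
  obtain ⟨φ, hφ⟩ := Algebra.IsStandardSmoothOfRelativeDimension.exists_etale_mvPolynomial g K S
  refine ⟨fun i ↦ φ (MvPolynomial.X i), ?_⟩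
  have hae : MvPolynomial.aeval (fun i ↦ φ (MvPolynomial.X i)) = φ := by
    apply MvPolynomial.algHom_ext
    intro i
    simp
  rw [AlgebraicIndependent, hae]
  -- `φ` is flat, the source is a domain and the target is nontrivial, so `φ` is injective
  algebraize [φ.toRingHom]
  have hflat : Module.Flat (MvPolynomial (Fin g) K) S := inferInstance
  rw [injective_iff_map_eq_zero]
  intro p hp
  by_contra hp0
  have hreg : IsSMulRegular S p :=
    Module.Flat.isSMulRegular_of_nonZeroDivisors (mem_nonZeroDivisors_of_ne_zero hp0)
  have h1 : p • (1 : S) = p • (0 : S) := by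
    rw [smul_zero, Algebra.smul_def, mul_one]
    exact hp
  exact one_ne_zero (hreg h1)

end Smooth

section Transfer

open Cardinal

universe v

/-- Algebraically independent elements of the fraction field give as many algebraically
independent elements of the ring itself (transcendence degree is unchanged by passing to the
fraction field). -/
theorem exists_algebraicIndependent_of_isFractionRing (K : Type*) {A F : Type v} [Field K]
    [CommRing A] [IsDomain A] [Field F] [Algebra K A] [Algebra K F] [Algebra A F]
    [IsScalarTower K A F] [IsFractionRing A F] (g : ℕ) (y : Fin g → F)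
    (hy : AlgebraicIndependent K y) : ∃ x : Fin g → A, AlgebraicIndependent K x := by
  have hAF : FaithfulSMul A F := (faithfulSMul_iff_algebraMap_injective A F).mpr
    (IsFractionRing.injective A F)
  have hKA : FaithfulSMul K A := (faithfulSMul_iff_algebraMap_injective K A).mpr
    (algebraMap K A).injective
  have halg : Algebra.IsAlgebraic A F := IsLocalization.isAlgebraic F (nonZeroDivisors A)
  have h1 : (g : Cardinal.{v}) ≤ Algebra.trdeg K F := by
    have := hy.lift_cardinalMk_le_trdeg
    simpa using this
  have h2 : Algebra.trdeg K A + Algebra.trdeg A F = Algebra.trdeg K F := trdeg_add_eq K A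
  rw [trdeg_eq_zero (R := A) (A := F), add_zero] at h2
  obtain ⟨s, hs⟩ := exists_isTranscendenceBasis K A
  have h3 : (g : Cardinal.{v}) ≤ #s := by
    rw [hs.cardinalMk_eq_trdeg, h2]; exact h1
  have h6 : lift.{v} #(Fin g) ≤ lift.{0} #s := by simpa using h3
  obtain ⟨e⟩ := Cardinal.lift_mk_le'.mp h6
  exact ⟨fun i ↦ (e i : A), hs.1.comp e e.injective⟩

end Transfer

end Fermat.Agent.AV.Var81
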