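/-
Fermat/Agent/AV/Var81/Topology.lean  (helper81) -- CELL AV (S26/S27), brick VAR.

A connected topological space covered by irreducible open subsets is irreducible.
-/
import Mathlib

set_option autoImplicit false

namespace Fermat.Agent.AV.Var81

open Set

/-- Two irreducible open subsets with nonempty intersection have the same closure. -/
theorem closure_eq_of_inter_nonempty {X : Type*} [TopologicalSpace X] {U V : Set X}
    (hUo : IsOpen U) (hVo : IsOpen V) (hU : IsPreirreducible U) (hV : IsPreirreducible V)
    (h : (U ∩ V).Nonempty) : closure U = closure V := by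
  have h1 : closure U = closure (U ∩ V) :=
    subset_antisymm
      (closure_minimal (subset_closure_inter_of_isPreirreducible_of_isOpen hU hVo h)
        isClosed_closure)
      (closure_mono inter_subset_left)
  have h' : (V ∩ U).Nonempty := by rwa [inter_comm]
  have h2 : closure V = closure (V ∩ U) :=
    subset_antisymm
      (closure_minimal (subset_closure_inter_of_isPreirreducible_of_isOpen hV hUo h')
        isClosed_closure)
      (closure_mono inter_subset_left)
  rw [h1, h2, inter_comm]

/-- A connected space which is covered by irreducible open subsets is irreducible. -/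
theorem irreducibleSpace_of_connected_of_cover {X : Type*} [TopologicalSpace X] [ConnectedSpace X]
    {ι : Type*} (U : ι → Set X) (hUo : ∀ i, IsOpen (U i)) (hUi : ∀ i, IsIrreducible (U i))
    (hcov : ⋃ i, U i = univ) : IrreducibleSpace X := by
  classical
  obtain ⟨x₀⟩ := (inferInstance : Nonempty X)
  obtain ⟨i₀, -⟩ : ∃ i, x₀ ∈ U i := by
    have : x₀ ∈ ⋃ i, U i := hcov ▸ mem_univ x₀
    simpa using this
  set Z := closure (U i₀) with hZ
  let A : Set X := ⋃ i ∈ {i | closure (U i) = Z}, U i
  let B : Set X := ⋃ i ∈ {i | closure (U i) ≠ Z}, U i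
  have hAo : IsOpen A := isOpen_biUnion fun i _ ↦ hUo i
  have hBo : IsOpen B := isOpen_biUnion fun i _ ↦ hUo i
  have hAB : univ ⊆ A ∪ B := by
    intro x _
    obtain ⟨i, hi⟩ : ∃ i, x ∈ U i := by
      have : x ∈ ⋃ i, U i := hcov ▸ mem_univ x
      simpa using this
    by_cases h : closure (U i) = Z
    · exact Or.inl (mem_biUnion (show i ∈ {i | closure (U i) = Z} from h) hi)
    · exact Or.inr (mem_biUnion (show i ∈ {i | closure (U i) ≠ Z} from h) hi)
  have hAne : (univ ∩ A).Nonempty := by
    obtain ⟨y, hy⟩ := (hUi i₀).nonempty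
    exact ⟨y, mem_univ y, mem_biUnion (show i₀ ∈ {i | closure (U i) = Z} from rfl) hy⟩
  have hBempty : B = ∅ := by
    by_contra hB
    have hBne : (univ ∩ B).Nonempty := by
      rw [univ_inter]; exact nonempty_iff_ne_empty.mpr hB
    obtain ⟨x, -, hxA, hxB⟩ := isPreconnected_univ A B hAo hBo hAB hAne hBne
    simp only [A, B, mem_iUnion, mem_ofPred_eq, exists_prop] at hxA hxB
    obtain ⟨i, hi, hxi⟩ := hxA
    obtain ⟨j, hj, hxj⟩ := hxB
    exact hj ((closure_eq_of_inter_nonempty (hUo j) (hUo i) (hUi j).isPreirreducible
      (hUi i).isPreirreducible ⟨x, hxj, hxi⟩).trans hi)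
  have hall : ∀ i, closure (U i) = Z := by
    intro i
    by_contra h
    obtain ⟨y, hy⟩ := (hUi i).nonempty
    have : y ∈ B := mem_biUnion (show i ∈ {i | closure (U i) ≠ Z} from h) hy
    rw [hBempty] at this
    exact this
  have hZuniv : Z = univ := by
    rw [eq_univ_iff_forall]
    intro x
    obtain ⟨i, hi⟩ : ∃ i, x ∈ U i := by
      have : x ∈ ⋃ i, U i := hcov ▸ mem_univ x
      simpa using this
    exact hall i ▸ subset_closure hi
  rw [irreducibleSpace_def]
  change IsIrreducible (univ : Set X)
  rw [← hZuniv]
  exact (hUi i₀).closure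

end Fermat.Agent.AV.Var81
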