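/-
Fermat/Agent/AV/Var81/Scheme.lean  (helper81) -- CELL AV (S26/S27), brick VAR, scheme half.

Varieties basics for smooth schemes over a field `K`:

* `sectionsMap f V : K →+* Γ(X, V)`: the `K`-algebra structure on sections of a `K`-scheme.
* `exists_affine_normal_nhds`: every point of a smooth `K`-scheme has an affine open
  neighbourhood whose ring of sections is an integrally closed domain.
* `isIntegral_of_smooth_of_connected`: smooth + connected ⇒ integral.
* `isIntegrallyClosed_of_smooth`: sections over affine opens of an integral smooth `K`-scheme are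
  integrally closed (normality).
-/
import Mathlib
import Fermat.Agent.AV.Var81.Alg
import Fermat.Agent.AV.Var81.Topology

set_option autoImplicit false

universe u

open CategoryTheory AlgebraicGeometry

namespace Fermat.Agent.AV.Var81

variable {K : Type u} [Field K] {X : Scheme.{u}} (f : X ⟶ Spec (.of K))

theorem le_preimage_top (V : X.Opens) : V ≤ f ⁻¹ᵁ ⊤ := fun _ _ ↦ trivial

/-- The structure map `K → Γ(X, V)` of a scheme over `Spec K`. -/
noncomputable def sectionsMap (V : X.Opens) : K →+* Γ(X, V) :=
  (f.appLE ⊤ V (le_preimage_top f V)).hom.comp (Scheme.ΓSpecIso (.of K)).inv.hom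

theorem sectionsMap_smooth [Smooth f] {V : X.Opens} (hV : IsAffineOpen V) :
    (sectionsMap f V).Smooth := by
  refine RingHom.Smooth.comp (RingHom.Smooth.of_bijective ?_)
    (Smooth.smooth_appLE f (isAffineOpen_top _) hV _)
  exact (ConcreteCategory.bijective_of_isIso (Scheme.ΓSpecIso (.of K)).inv)

/-- Restriction of sections is compatible with the structure maps. -/
theorem sectionsMap_map {V W : X.Opens} (h : W ≤ V) :
    (X.presheaf.map (homOfLE h).op).hom.comp (sectionsMap f V) = sectionsMap f W := by
  unfold sectionsMap
  rw [← RingHom.comp_assoc]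
  congr 1
  rw [← CommRingCat.hom_comp, Scheme.Hom.appLE_map]

/-- Every point of a smooth scheme over a field has an affine open neighbourhood whose ring of
sections is an integrally closed domain. -/
theorem exists_affine_normal_nhds [Smooth f] (x : X) :
    ∃ W : X.Opens, IsAffineOpen W ∧ x ∈ W ∧ IsDomain Γ(X, W) ∧ IsIntegrallyClosed Γ(X, W) := by
  obtain ⟨_, ⟨V, hV : IsAffineOpen V, rfl⟩, hxV, -⟩ :=
    X.isBasis_affineOpens.exists_subset_of_mem_open (Set.mem_univ x) isOpen_univ
  have hsm := sectionsMap_smooth f hV
  algebraize [sectionsMap f V]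
  set y := hV.primeIdealOf ⟨x, hxV⟩ with hy
  have hyx : hV.fromSpec y = x := hV.fromSpec_primeIdealOf ⟨x, hxV⟩
  obtain ⟨h, hq, H⟩ := exists_away_normal_of_smooth K y.asIdeal
  have hloc : IsLocalization.Away h Γ(X, X.basicOpen h) := hV.isLocalization_basicOpen h
  obtain ⟨hd, hic⟩ := H Γ(X, X.basicOpen h)
  refine ⟨X.basicOpen h, hV.basicOpen h, ?_, hd, hic⟩
  rw [← hyx]
  change y ∈ hV.fromSpec ⁻¹ᵁ X.basicOpen h
  rw [hV.fromSpec_preimage_basicOpen]
  exact hq

/-- An affine open subscheme whose ring of sections is a domain is an integral scheme. -/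
theorem isIntegral_of_isAffineOpen_of_isDomain {W : X.Opens} (hW : IsAffineOpen W)
    [IsDomain Γ(X, W)] : IsIntegral (W : Scheme.{u}) := by
  have : IsAffine (W : Scheme.{u}) := hW
  have : IsDomain Γ(W, ⊤) :=
    (W.topIso.commRingCatIsoToRingEquiv.toMulEquiv).isDomain
  have : Nonempty (W : Scheme.{u}) := by
    by_contra hne
    rw [not_nonempty_iff] at hne
    have : Subsingleton Γ(W, ⊤) := by
      have h0 : (⊤ : (W : Scheme.{u}).Opens) = ⊥ := by
        ext x; exact (hne.false x).elim
      rw [h0]
      infer_instance
    exact not_subsingleton Γ(W, ⊤) this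
  exact isIntegral_of_isAffine_of_isDomain _

/-- **Smooth + connected ⇒ integral.**  A connected scheme which is smooth over a field is
integral. -/
theorem isIntegral_of_smooth_of_connected [Smooth f] [ConnectedSpace X] : IsIntegral X := by
  choose W hWaff hxW hWdom hWic using exists_affine_normal_nhds f
  have hint : ∀ x, IsIntegral (W x : Scheme.{u}) := fun x ↦
    isIntegral_of_isAffineOpen_of_isDomain (hWaff x)
  have hcov : TopologicalSpace.IsOpenCover W := by
    rw [TopologicalSpace.IsOpenCover, eq_top_iff]
    intro x _
    exact TopologicalSpace.Opens.mem_iSup.mpr ⟨x, hxW x⟩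
  have : IsReduced X := by
    have hred : ∀ i, IsReduced ((X.openCoverOfIsOpenCover W hcov).X i) := fun i ↦ by
      change IsReduced (W i : Scheme.{u})
      have := hint i
      infer_instance
    exact IsReduced.of_openCover _ (X.openCoverOfIsOpenCover W hcov)
  have : IrreducibleSpace X := by
    refine irreducibleSpace_of_connected_of_cover (fun x ↦ (W x : Set X)) (fun x ↦ (W x).isOpen)
      (fun x ↦ ?_) ?_
    · have := hint x
      have h1 : IrreducibleSpace (W x : Scheme.{u}) := inferInstance
      have h2 : IrreducibleSpace ↥(W x : Set X) := h1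
      exact IsIrreducible.of_subtype (s := (W x : Set X))
    · rw [Set.eq_univ_iff_forall]
      intro x
      exact Set.mem_iUnion.mpr ⟨x, hxW x⟩
  exact isIntegral_of_irreducibleSpace_of_isReduced X

/-- **Normality.**  On an integral scheme which is smooth over a field, the ring of sections over
every nonempty affine open is integrally closed. -/
theorem isIntegrallyClosed_sections [Smooth f] [IsIntegral X] {U : X.Opens} (hU : IsAffineOpen U)
    [Nonempty U] : IsIntegrallyClosed Γ(X, U) := by
  have hsm := sectionsMap_smooth f hU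
  algebraize [sectionsMap f U]
  exact isIntegrallyClosed_of_smooth K

/-- The stalks of an integral scheme which is smooth over a field are integrally closed. -/
theorem isIntegrallyClosed_stalk [Smooth f] [IsIntegral X] (x : X) :
    IsIntegrallyClosed (X.presheaf.stalk x) := by
  obtain ⟨_, ⟨U, hU : IsAffineOpen U, rfl⟩, hxU, -⟩ :=
    X.isBasis_affineOpens.exists_subset_of_mem_open (Set.mem_univ x) isOpen_univ
  have : Nonempty U := ⟨⟨x, hxU⟩⟩
  have := isIntegrallyClosed_sections f hU
  let _ : Algebra Γ(X, U) (X.presheaf.stalk x) :=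
    TopCat.Presheaf.algebra_section_stalk X.presheaf ⟨x, hxU⟩
  have hloc := hU.isLocalization_stalk ⟨x, hxU⟩
  exact isIntegrallyClosed_of_isLocalization (R := Γ(X, U)) _
    (hU.primeIdealOf ⟨x, hxU⟩).asIdeal.primeCompl
    (Ideal.primeCompl_le_nonZeroDivisors _)

/-- The structure map `K → K(X)` to the function field does not depend on the open through
which it is defined. -/
theorem germToFunctionField_comp_sectionsMap [IsIntegral X] (V W : X.Opens) [Nonempty V]
    [Nonempty W] :
    (X.germToFunctionField V).hom.comp (sectionsMap f V) =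
      (X.germToFunctionField W).hom.comp (sectionsMap f W) := by
  have key : ∀ (V : X.Opens) [Nonempty V] [Nonempty (⊤ : X.Opens)],
      (X.germToFunctionField V).hom.comp (sectionsMap f V) =
        (X.germToFunctionField ⊤).hom.comp (sectionsMap f ⊤) := by
    intro V _ _
    rw [← sectionsMap_map f (le_top : V ≤ ⊤), ← RingHom.comp_assoc]
    congr 1
    rw [← CommRingCat.hom_comp]
    congr 1
    exact X.presheaf.germ_res (homOfLE (le_top : V ≤ ⊤)) _ _
  have : Nonempty (⊤ : X.Opens) := ⟨⟨genericPoint X, trivial⟩⟩
  rw [key V, key W]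

/-- If `X` is smooth of relative dimension `g` over `K`, some nonempty affine open carries `g`
algebraically independent functions (étale coordinates). -/
theorem exists_affine_algebraicIndependent (g : ℕ) [SmoothOfRelativeDimension g f] [Nonempty X]
    [IsIntegral X] : ∃ (V₀ : X.Opens) (_ : IsAffineOpen V₀) (_ : Nonempty V₀),
      letI := (sectionsMap f V₀).toAlgebra
      ∃ x : Fin g → Γ(X, V₀), AlgebraicIndependent K x := by
  obtain ⟨x₀⟩ := (inferInstance : Nonempty X)
  obtain ⟨U₀, hU₀, V₀, hV₀, hx₀, e, hstd⟩ :=
    SmoothOfRelativeDimension.exists_isStandardSmoothOfRelativeDimension (n := g) (f := f) x₀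
  obtain rfl : U₀ = ⊤ := by
    rw [eq_top_iff]
    intro y _
    have : y = f x₀ := Subsingleton.elim _ _
    rw [this]
    exact e hx₀
  have hne : Nonempty V₀ := ⟨⟨x₀, hx₀⟩⟩
  refine ⟨V₀, hV₀, hne, ?_⟩
  have hstd' : (sectionsMap f V₀).IsStandardSmoothOfRelativeDimension (g + 0) :=
    RingHom.IsStandardSmoothOfRelativeDimension.comp hstd
      (RingHom.IsStandardSmoothOfRelativeDimension.equiv
        (Scheme.ΓSpecIso (.of K)).symm.commRingCatIsoToRingEquiv)
  rw [add_zero] at hstd'
  algebraize [sectionsMap f V₀]
  exact exists_algebraicIndependent_of_standardSmooth K g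

/-- **Algebraically independent functions.**  If `X` is integral and smooth of relative
dimension `g` over `K`, then every nonempty affine open `V` carries `g` algebraically independent
functions (w.r.t. the `K`-algebra structure `sectionsMap f V`). -/
theorem exists_algebraicIndependent_sections (g : ℕ) [SmoothOfRelativeDimension g f]
    [IsIntegral X] {V : X.Opens} (hV : IsAffineOpen V) [Nonempty V] :
    letI := (sectionsMap f V).toAlgebra
    ∃ x : Fin g → Γ(X, V), AlgebraicIndependent K x := by
  obtain ⟨V₀, hV₀, hne₀, hx₀⟩ := exists_affine_algebraicIndependent f g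
  let algV₀ : Algebra K Γ(X, V₀) := (sectionsMap f V₀).toAlgebra
  let algV : Algebra K Γ(X, V) := (sectionsMap f V).toAlgebra
  obtain ⟨x₀, hx₀⟩ := hx₀
  let algF : Algebra K X.functionField :=
    ((X.germToFunctionField V₀).hom.comp (sectionsMap f V₀)).toAlgebra
  have tower₀ : IsScalarTower K Γ(X, V₀) X.functionField := .of_algebraMap_eq fun _ ↦ rfl
  have tower : IsScalarTower K Γ(X, V) X.functionField := .of_algebraMap_eq fun k ↦ by
    change ((X.germToFunctionField V₀).hom.comp (sectionsMap f V₀)) k =
      ((X.germToFunctionField V).hom.comp (sectionsMap f V)) k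
    rw [germToFunctionField_comp_sectionsMap f V₀ V]
  have hfrac : IsFractionRing Γ(X, V) X.functionField :=
    functionField_isFractionRing_of_isAffineOpen X V hV
  have hy : AlgebraicIndependent K
      (fun i ↦ IsScalarTower.toAlgHom K Γ(X, V₀) X.functionField (x₀ i)) :=
    hx₀.map' (f := IsScalarTower.toAlgHom K Γ(X, V₀) X.functionField)
      (X.germToFunctionField_injective V₀)
  exact exists_algebraicIndependent_of_isFractionRing K g _ hy

end Fermat.Agent.AV.Var81
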