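/-
Fermat/Agent/AV/Var81/Coords.lean  (helper81) -- CELL AV (S26/S27), brick VAR, étale coordinates.

Scheme-level export of étale coordinates: if `f : X ⟶ Spec K` is smooth of relative dimension `g`,
every point `x` has an affine open neighbourhood `V` such that `Γ(X, V)` (with the `K`-algebra
structure `sectionsMap f V`) is standard smooth of relative dimension `g` over `K`; hence there is
an étale `K`-algebra map `K[X₁, …, X_g] → Γ(X, V)`.
-/
import Mathlib
import Fermat.Agent.AV.Var81.Scheme

set_option autoImplicit false

universe u

open CategoryTheory AlgebraicGeometry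

namespace Fermat.Agent.AV.Var81

variable {K : Type u} [Field K] {X : Scheme.{u}} (f : X ⟶ Spec (.of K))

/-- Every point of a scheme which is smooth of relative dimension `g` over a field has an affine
open neighbourhood on which the structure map is standard smooth of relative dimension `g`. -/
theorem exists_affine_standardSmooth (g : ℕ) [SmoothOfRelativeDimension g f] (x : X) :
    ∃ (V : X.Opens) (_ : IsAffineOpen V), x ∈ V ∧
      (sectionsMap f V).IsStandardSmoothOfRelativeDimension g := by
  obtain ⟨U₀, hU₀, V₀, hV₀, hx₀, e, hstd⟩ :=
    SmoothOfRelativeDimension.exists_isStandardSmoothOfRelativeDimension (n := g) (f := f) x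
  obtain rfl : U₀ = ⊤ := by
    rw [eq_top_iff]
    intro y _
    have : y = f x := Subsingleton.elim _ _
    rw [this]
    exact e hx₀
  refine ⟨V₀, hV₀, hx₀, ?_⟩
  have hstd' : (sectionsMap f V₀).IsStandardSmoothOfRelativeDimension (g + 0) :=
    RingHom.IsStandardSmoothOfRelativeDimension.comp hstd
      (RingHom.IsStandardSmoothOfRelativeDimension.equiv
        (Scheme.ΓSpecIso (.of K)).symm.commRingCatIsoToRingEquiv)
  rwa [add_zero] at hstd'

/-- **Étale coordinates.**  Every point of a scheme which is smooth of relative dimension `g`
over a field `K` has an affine open neighbourhood `V` with an étale `K`-algebra homomorphism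
`K[X₁, …, X_g] → Γ(X, V)` (for the algebra structure `(sectionsMap f V).toAlgebra`). -/
theorem exists_etale_coordinates (g : ℕ) [SmoothOfRelativeDimension g f] (x : X) :
    ∃ (V : X.Opens) (_ : IsAffineOpen V), x ∈ V ∧
      letI := (sectionsMap f V).toAlgebra
      Algebra.IsStandardSmoothOfRelativeDimension g K Γ(X, V) ∧
      ∃ φ : MvPolynomial (Fin g) K →ₐ[K] Γ(X, V), φ.toRingHom.Etale := by
  obtain ⟨V, hV, hxV, hstd⟩ := exists_affine_standardSmooth f g x
  refine ⟨V, hV, hxV, ?_⟩
  algebraize [sectionsMap f V]
  exact ⟨inferInstance,
    Algebra.IsStandardSmoothOfRelativeDimension.exists_etale_mvPolynomial g K Γ(X, V)⟩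

end Fermat.Agent.AV.Var81
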