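/-
Fermat/Agent/AV/Var81/FunctionField.lean  (helper81) -- CELL AV, brick VAR, adapters to PIC-div.

Adapters from `Var81` to the function-field phrasing of `PicDiv86` (used by SAND/UPB/VOLINST):

* `ffMap f : K →+* X.functionField`, `ffAlgebra f : Algebra K X.functionField` for an integral
  scheme `f : X ⟶ Spec K` (`ffMap_eq_sectionsRingHom`: it is the same map as the one built from
  `Jac.sectionsRingHom`, i.e. `Box14.ffAlgebra`);
* `ffMap_mem_regularOn_univ`, `algebraMap_mem_regularOn_univ(')`: constants are regular everywhere
  (hypothesis `hR`/`hK` of `PicDiv86.H0Submodule`, `Sand86`);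
* `exists_algebraicIndependent_regularOn(')`: on an integral scheme smooth of relative dimension `g`
  every nonempty affine open `U` carries `g` algebraically independent rational functions which
  are regular on `U` (hypotheses `x hx hxU` of `Sand86.exists_lower_bound`);
* `hnorm`: normality in the form used by `Sand86`.

The primed versions are stated for an arbitrary instance `[Algebra K X.functionField]` together
with the compatibility hypothesis `algebraMap K X.functionField = ffMap f`.
-/
import Mathlib
import Fermat.Agent.AV.Var81.Scheme
import Fermat.Agent.AV.PicDiv86.Basic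
import Fermat.Agent.Jac.CurveCharts

set_option autoImplicit false
set_option linter.style.haveILetI false

universe u

open CategoryTheory AlgebraicGeometry

namespace Fermat.Agent.AV.Var81

open Fermat.Agent.AV.PicDiv86

variable {K : Type u} [Field K] {X : Scheme.{u}} (f : X ⟶ Spec (.of K))

/-- `Var81.sectionsMap` is the same map as `Jac.sectionsRingHom`. -/
theorem sectionsMap_eq_sectionsRingHom (V : X.Opens) :
    sectionsMap f V = Fermat.Agent.Jac.sectionsRingHom f V := by
  unfold sectionsMap Fermat.Agent.Jac.sectionsRingHom
  ext r
  simp only [RingHom.coe_comp, Function.comp_apply, CommRingCat.hom_comp]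
  rw [Scheme.Hom.appLE]
  rfl

theorem nonempty_top [IsIntegral X] : Nonempty (⊤ : X.Opens) := ⟨⟨genericPoint X, trivial⟩⟩

/-- The structure map `K → K(X)`. -/
noncomputable def ffMap [IsIntegral X] : K →+* X.functionField :=
  haveI : Nonempty (⊤ : X.Opens) := nonempty_top
  (X.germToFunctionField ⊤).hom.comp (sectionsMap f ⊤)

theorem ffMap_eq [IsIntegral X] (V : X.Opens) [Nonempty V] :
    ffMap f = (X.germToFunctionField V).hom.comp (sectionsMap f V) := by
  haveI : Nonempty (⊤ : X.Opens) := nonempty_top
  exact (germToFunctionField_comp_sectionsMap f V ⊤).symm

theorem ffMap_apply [IsIntegral X] (V : X.Opens) [Nonempty V] (r : K) :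
    ffMap f r = X.germToFunctionField V (sectionsMap f V r) := by
  rw [ffMap_eq f V]; rfl

/-- `ffMap` in terms of `Jac.sectionsRingHom` (this is the ring map defining `Box14.ffAlgebra`). -/
theorem ffMap_eq_sectionsRingHom [IsIntegral X] (V : X.Opens) [Nonempty V] :
    ffMap f = (X.germToFunctionField V).hom.comp (Fermat.Agent.Jac.sectionsRingHom f V) := by
  rw [ffMap_eq f V, sectionsMap_eq_sectionsRingHom]

/-- The `K`-algebra structure on the function field of an integral `K`-scheme (a `def`, not an
instance: use `letI := ffAlgebra f`). -/
@[reducible] noncomputable def ffAlgebra [IsIntegral X] : Algebra K X.functionField :=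
  (ffMap f).toAlgebra

theorem algebraMap_ffAlgebra [IsIntegral X] :
    letI := ffAlgebra f
    algebraMap K X.functionField = ffMap f := rfl

/-- Constants are regular everywhere. -/
theorem ffMap_mem_regularOn_univ [IsIntegral X] (r : K) :
    ffMap f r ∈ regularOn X Set.univ := by
  haveI : Nonempty (⊤ : X.Opens) := nonempty_top
  have h := germToFunctionField_mem_regularOn (X := X) (U := ⊤) (sectionsMap f ⊤ r)
  rw [ffMap_apply f ⊤ r]
  exact regularOn_anti (U := Set.univ) (V := ((⊤ : X.Opens) : Set X)) (fun _ _ ↦ trivial) h

/-- Constants are regular everywhere (any `K`-structure on the function field compatible with the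
structure morphism). -/
theorem algebraMap_mem_regularOn_univ' [IsIntegral X] [Algebra K X.functionField]
    (hcompat : algebraMap K X.functionField = ffMap f) (r : K) :
    algebraMap K X.functionField r ∈ regularOn X Set.univ := by
  rw [hcompat]; exact ffMap_mem_regularOn_univ f r

/-- Constants are regular everywhere (for `ffAlgebra f`). -/
theorem algebraMap_mem_regularOn_univ [IsIntegral X] (r : K) :
    letI := ffAlgebra f
    algebraMap K X.functionField r ∈ regularOn X Set.univ :=
  ffMap_mem_regularOn_univ f r

/-- With `K`-structures `sectionsMap f V` on sections and any compatible one on the function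
field, the germ map is a tower. -/
theorem isScalarTower_sections' [IsIntegral X] [Algebra K X.functionField]
    (hcompat : algebraMap K X.functionField = ffMap f) (V : X.Opens) [Nonempty V] :
    letI := (sectionsMap f V).toAlgebra
    IsScalarTower K Γ(X, V) X.functionField := by
  letI := (sectionsMap f V).toAlgebra
  refine .of_algebraMap_eq fun k ↦ ?_
  rw [hcompat]
  exact ffMap_apply f V k

/-- With `K`-structures `sectionsMap f V` on sections and `ffAlgebra f` on the function field, the
germ map is a tower. -/
theorem isScalarTower_sections [IsIntegral X] (V : X.Opens) [Nonempty V] :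
    letI := (sectionsMap f V).toAlgebra
    letI := ffAlgebra f
    IsScalarTower K Γ(X, V) X.functionField :=
  letI := ffAlgebra f
  isScalarTower_sections' f rfl V

/-- **Lower-bound input for SAND** (any compatible `K`-structure on the function field).  On an
integral scheme smooth of relative dimension `g` over `K`, every nonempty affine open `U` carries
`g` algebraically independent rational functions regular on `U`. -/
theorem exists_algebraicIndependent_regularOn' (g : ℕ) [SmoothOfRelativeDimension g f]
    [IsIntegral X] [Algebra K X.functionField]
    (hcompat : algebraMap K X.functionField = ffMap f)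
    {U : X.Opens} (hU : IsAffineOpen U) [Nonempty U] :
    ∃ x : Fin g → X.functionField, AlgebraicIndependent K x ∧
      ∀ i, x i ∈ regularOn X (U : Set X) := by
  letI algU : Algebra K Γ(X, U) := (sectionsMap f U).toAlgebra
  have tower : IsScalarTower K Γ(X, U) X.functionField := isScalarTower_sections' f hcompat U
  obtain ⟨x, hx⟩ := exists_algebraicIndependent_sections f g hU
  refine ⟨fun i ↦ IsScalarTower.toAlgHom K Γ(X, U) X.functionField (x i), ?_, fun i ↦ ?_⟩
  · exact hx.map' (f := IsScalarTower.toAlgHom K Γ(X, U) X.functionField)
      (X.germToFunctionField_injective U)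
  · exact germToFunctionField_mem_regularOn (x i)

/-- **Lower-bound input for SAND** (for `ffAlgebra f`). -/
theorem exists_algebraicIndependent_regularOn (g : ℕ) [SmoothOfRelativeDimension g f]
    [IsIntegral X] {U : X.Opens} (hU : IsAffineOpen U) [Nonempty U] :
    letI := ffAlgebra f
    ∃ x : Fin g → X.functionField, AlgebraicIndependent K x ∧
      ∀ i, x i ∈ regularOn X (U : Set X) :=
  letI := ffAlgebra f
  exists_algebraicIndependent_regularOn' f g rfl hU

/-- **Normality, in the form used by SAND.** -/
theorem hnorm [Smooth f] [IsIntegral X] :
    ∀ V : X.Opens, IsAffineOpen V → Nonempty V → IsIntegrallyClosed Γ(X, V) :=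
  fun _ hV _ ↦ isIntegrallyClosed_sections f hV

end Fermat.Agent.AV.Var81
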